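/-
Tate normal form at a point of order `11`: the parameters `(r, s)` satisfy the equation of
`X₁(11)`, so no elliptic curve over `ℚ` has such a point.
-/
import Fermat.Agent.Descent11.Points
import Mathlib.Tactic.LinearCombination
import Mathlib.Tactic.FieldSimp
import Mathlib.Tactic.Linarith
import Mathlib.AlgebraicGeometry.EllipticCurve.Affine.Point
import Mathlib.GroupTheory.OrderOfElement

set_option autoImplicit false

open WeierstrassCurve WeierstrassCurve.Affine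

namespace Fermat.Agent.Small11

/-- From the Tate normal form parameters of a curve with a point of order `11` to the model
`v² + v = u³ - u²` of `X₁(11)`. -/
theorem exists_x1_point {r s : ℚ} (hF : r ^ 2 - r * s ^ 3 + 3 * r * s ^ 2 - 4 * r * s + s = 0)
    (hr0 : r ≠ 0) (hr1 : r ≠ 1) (hs1 : s ≠ 1) :
    ∃ u v : ℚ, v ^ 2 + v = u ^ 3 - u ^ 2 ∧ u ≠ 0 ∧ u ≠ 1 := by
  have hv : r - 1 ≠ 0 := sub_ne_zero.2 hr1
  have hw : s - 1 ≠ 0 := sub_ne_zero.2 hs1
  refine ⟨(r - 1) / (s - 1), r - 1, ?_, div_ne_zero hv hw, ?_⟩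
  · field_simp
    linear_combination -hF
  · rw [Ne, div_eq_one_iff_eq hw]
    intro h
    have hrs : r = s := by linarith
    subst hrs
    have : r * (r - 1) ^ 3 = 0 := by linear_combination -hF
    rcases mul_eq_zero.1 this with h' | h'
    · exact hr0 h'
    · exact hv (eq_zero_of_pow_eq_zero h')

/-- Normalising data at the point `(x₀, y₀)`: the substitution `x = x₀ + X / μ²`,
`y = y₀ + m X / μ² + Y / μ³` turns `W` into `Y² + (1-c) X Y - b Y = X³ - b X²`. -/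
structure TateDatum (W : WeierstrassCurve.Affine ℚ) (x₀ y₀ μ m b c : ℚ) : Prop where
  mu_ne : μ ≠ 0
  a1 : (W.a₁ + 2 * m) * μ = 1 - c
  a2 : (W.a₂ + 3 * x₀ - m * W.a₁ - m ^ 2) * μ ^ 2 = -b
  a3 : (W.a₃ + x₀ * W.a₁ + 2 * y₀) * μ ^ 3 = -b
  tangent : m * (W.a₃ + x₀ * W.a₁ + 2 * y₀) =
    3 * x₀ ^ 2 + 2 * W.a₂ * x₀ + W.a₄ - W.a₁ * y₀
  eqn : y₀ ^ 2 + W.a₁ * x₀ * y₀ + W.a₃ * y₀ =
    x₀ ^ 3 + W.a₂ * x₀ ^ 2 + W.a₄ * x₀ + W.a₆

variable {W : WeierstrassCurve.Affine ℚ}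

theorem TateDatum.double {x₀ y₀ μ m b c : ℚ} (d : TateDatum W x₀ y₀ μ m b c) (hb : b ≠ 0)
    (h₀ : W.Nonsingular x₀ y₀) :
    ∃ h, Point.some x₀ y₀ h₀ + Point.some x₀ y₀ h₀ =
      Point.some (x₀ + b / μ ^ 2) (y₀ + m * b / μ ^ 2 + b * c / μ ^ 3) h := by
  have hA3 : W.a₃ + x₀ * W.a₁ + 2 * y₀ ≠ 0 := by
    intro h
    have := d.a3
    rw [h, zero_mul, eq_comm, neg_eq_zero] at this
    exact hb this
  have hy : y₀ ≠ W.negY x₀ y₀ := by
    intro h
    rw [negY] at h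
    exact hA3 (by linear_combination h)
  have hs : W.slope x₀ x₀ y₀ y₀ = m := by
    rw [slope_of_Y_ne rfl hy, div_eq_iff (sub_ne_zero.2 hy), negY]
    linear_combination -d.tangent
  have hμ := d.mu_ne
  have hA2 : W.a₂ + 3 * x₀ - m * W.a₁ - m ^ 2 = -b / μ ^ 2 := by
    rw [eq_div_iff (pow_ne_zero _ hμ)]; exact d.a2
  have hA1 : W.a₁ + 2 * m = (1 - c) / μ := by rw [eq_div_iff hμ]; exact d.a1
  have hA3' : W.a₃ + x₀ * W.a₁ + 2 * y₀ = -b / μ ^ 3 := by
    rw [eq_div_iff (pow_ne_zero _ hμ)]; exact d.a3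
  have hx : W.addX x₀ x₀ (W.slope x₀ x₀ y₀ y₀) = x₀ + b / μ ^ 2 := by
    rw [hs, addX]
    linear_combination -hA2
  have hy' : W.addY x₀ x₀ y₀ (W.slope x₀ x₀ y₀ y₀) = y₀ + m * b / μ ^ 2 + b * c / μ ^ 3 := by
    rw [addY, negAddY, hx, hs, negY]
    linear_combination -(b / μ ^ 2) * hA1 - hA3'
  refine ⟨hx ▸ hy' ▸ nonsingular_add h₀ h₀ fun hxy => hy hxy.2, ?_⟩
  rw [Point.add_self_of_Y_ne hy]
  simp only [hx, hy']

theorem TateDatum.add_base {x₀ y₀ μ m b c X Y l : ℚ} (d : TateDatum W x₀ y₀ μ m b c)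
    (h₀ : W.Nonsingular x₀ y₀) {Q : W.Point} (hX : X ≠ 0) (hl : l * X = Y)
    (hQ : ∃ h, Q = Point.some (x₀ + X / μ ^ 2) (y₀ + m * X / μ ^ 2 + Y / μ ^ 3) h) :
    ∃ h, Q + Point.some x₀ y₀ h₀ =
      Point.some (x₀ + (l ^ 2 + (1 - c) * l + b - X) / μ ^ 2)
        (y₀ + m * (l ^ 2 + (1 - c) * l + b - X) / μ ^ 2
          + (-(l + (1 - c)) * (l ^ 2 + (1 - c) * l + b - X) + b) / μ ^ 3) h := by
  obtain ⟨h, rfl⟩ := hQ
  have hμ := d.mu_ne
  have hne : x₀ + X / μ ^ 2 ≠ x₀ := by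
    intro h'
    exact div_ne_zero hX (pow_ne_zero 2 hμ) (by linarith)
  subst hl
  have hs : W.slope (x₀ + X / μ ^ 2) x₀ (y₀ + m * X / μ ^ 2 + l * X / μ ^ 3) y₀ = m + l / μ := by
    rw [slope_of_X_ne hne,
      show y₀ + m * X / μ ^ 2 + l * X / μ ^ 3 - y₀ = (m + l / μ) * (X / μ ^ 2) by ring,
      add_sub_cancel_left, mul_div_cancel_right₀ _ (div_ne_zero hX (pow_ne_zero _ hμ))]
  have hA2 : W.a₂ + 3 * x₀ - m * W.a₁ - m ^ 2 = -b / μ ^ 2 := by
    rw [eq_div_iff (pow_ne_zero _ hμ)]; exact d.a2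
  have hA1 : W.a₁ + 2 * m = (1 - c) / μ := by rw [eq_div_iff hμ]; exact d.a1
  have hA3 : W.a₃ + x₀ * W.a₁ + 2 * y₀ = -b / μ ^ 3 := by
    rw [eq_div_iff (pow_ne_zero _ hμ)]; exact d.a3
  set X' := l ^ 2 + (1 - c) * l + b - X with hX'
  have hx : W.addX (x₀ + X / μ ^ 2) x₀
      (W.slope (x₀ + X / μ ^ 2) x₀ (y₀ + m * X / μ ^ 2 + l * X / μ ^ 3) y₀) = x₀ + X' / μ ^ 2 := by
    rw [hs, addX, hX']
    linear_combination -hA2 + (l / μ) * hA1
  have hy' : W.addY (x₀ + X / μ ^ 2) x₀ (y₀ + m * X / μ ^ 2 + l * X / μ ^ 3)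
      (W.slope (x₀ + X / μ ^ 2) x₀ (y₀ + m * X / μ ^ 2 + l * X / μ ^ 3) y₀) =
      y₀ + m * X' / μ ^ 2 + (-(l + (1 - c)) * X' + b) / μ ^ 3 := by
    rw [addY, negAddY, hx, hs, negY]
    linear_combination -(X' / μ ^ 2) * hA1 - hA3
  refine ⟨hx ▸ hy' ▸ nonsingular_add h h₀ fun hxy => hne hxy.1, ?_⟩
  rw [Point.add_of_X_ne hne]
  simp only [hx, hy']

/-- A point of order `11` gives a point on the curve `X₁(11)` in the parameters `(r, s)`. -/
theorem exists_params (P : W.Point) (hP : addOrderOf P = 11) :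
    ∃ r s : ℚ, r ^ 2 - r * s ^ 3 + 3 * r * s ^ 2 - 4 * r * s + s = 0 ∧
      r ≠ 0 ∧ r ≠ 1 ∧ s ≠ 1 := by
  have hne : ∀ k : ℕ, 0 < k → k < 11 → k • P ≠ 0 := by
    intro k hk hk' h
    have := Nat.le_of_dvd hk (hP ▸ addOrderOf_dvd_of_nsmul_eq_zero h)
    omega
  match P with
  | .zero => exact absurd (by simp [← Point.zero_def]) (hne 1 (by norm_num) (by norm_num))
  | .some x₀ y₀ h₀ =>
    set P : W.Point := Point.some x₀ y₀ h₀ with hPdef
    have hP11 : 11 • P = 0 := hP ▸ addOrderOf_nsmul_eq_zero P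
    -- `k • P = ± P` is impossible for `2 ≤ k ≤ 9`
    have hX : ∀ (k : ℕ) (x y : ℚ) (h : W.Nonsingular x y), 2 ≤ k → k ≤ 9 →
        k • P = Point.some x y h → x ≠ x₀ := by
      intro k x y h hk hk' hkP hx
      rcases (Point.X_eq_iff (h₁ := h) (h₂ := h₀)).1 hx with e | e
      · refine hne (k - 1) (by omega) (by omega) ?_
        have : (k - 1) • P + P = P := by
          rw [← succ_nsmul, Nat.sub_add_cancel (by omega : 1 ≤ k), hkP, e]
        exact add_eq_right.1 this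
      · refine hne (k + 1) (by omega) (by omega) ?_
        rw [succ_nsmul, hkP, e, ← hPdef, neg_add_cancel]
    have hA3 : W.a₃ + x₀ * W.a₁ + 2 * y₀ ≠ 0 := by
      intro h
      refine hne 2 (by norm_num) (by norm_num) ?_
      rw [two_nsmul]
      exact Point.add_self_of_Y_eq (by rw [negY]; linear_combination h)
    set A3 := W.a₃ + x₀ * W.a₁ + 2 * y₀ with hA3def
    set m := (3 * x₀ ^ 2 + 2 * W.a₂ * x₀ + W.a₄ - W.a₁ * y₀) / A3 with hm
    set A2 := W.a₂ + 3 * x₀ - m * W.a₁ - m ^ 2 with hA2def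
    have hA2 : A2 ≠ 0 := by
      intro h
      have hy : y₀ ≠ W.negY x₀ y₀ := by
        intro h'
        rw [negY] at h'
        exact hA3 (by linear_combination h')
      have hs : W.slope x₀ x₀ y₀ y₀ = m := by
        rw [slope_of_Y_ne rfl hy, hm, negY, hA3def]
        congr 1
        ring
      refine hX 2 _ _ (nonsingular_add h₀ h₀ fun hxy => hy hxy.2) le_rfl (by norm_num)
        ((two_nsmul P).trans (Point.add_self_of_Y_ne hy)) ?_
      rw [hs, addX]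
      linear_combination -h
    set μ := A2 / A3 with hμdef
    have hμ : μ ≠ 0 := div_ne_zero hA2 hA3
    set b := -(A2 * μ ^ 2) with hbdef
    set c := 1 - (W.a₁ + 2 * m) * μ with hcdef
    have hb : b ≠ 0 := neg_ne_zero.2 (mul_ne_zero hA2 (pow_ne_zero _ hμ))
    have d : TateDatum W x₀ y₀ μ m b c :=
      { mu_ne := hμ
        a1 := by rw [hcdef]; ring
        a2 := by rw [hbdef, ← hA2def]; ring
        a3 := by rw [hbdef, ← hA3def, hμdef]; field_simp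
        tangent := by rw [← hA3def, hm, div_mul_cancel₀ _ hA3]
        eqn := (equation_iff _ _).1 h₀.1 }
    clear hbdef hcdef hμdef hA2def hm hA2 hA3
    clear_value b c μ m
    obtain ⟨h2, e2⟩ := d.double hb h₀
    rw [← hPdef, ← two_nsmul] at e2
    have e3 := d.add_base h₀ (l := c) hb (by ring) ⟨h2, e2⟩
    rw [← hPdef, ← succ_nsmul, show c ^ 2 + (1 - c) * c + b - b = c by ring,
      show -(c + (1 - c)) * c + b = b - c by ring] at e3
    obtain ⟨h3, e3⟩ := e3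
    have hc : c ≠ 0 := by
      intro h
      exact hX 3 _ _ h3 (by norm_num) (by norm_num) e3 (by rw [h]; ring)
    obtain ⟨r, hr⟩ : ∃ r, b = r * c := ⟨b / c, (div_mul_cancel₀ _ hc).symm⟩
    have hr0 : r ≠ 0 := by
      rintro rfl
      exact hb (by rw [hr]; ring)
    have e4 := d.add_base h₀ (l := r - 1) hc (by rw [hr]; ring) ⟨h3, e3⟩
    rw [← hPdef, ← succ_nsmul,
      show (r - 1) ^ 2 + (1 - c) * (r - 1) + b - c = r * (r - 1) by rw [hr]; ring,
      show -(r - 1 + (1 - c)) * (r * (r - 1)) + b = r ^ 2 * (c - r + 1) by rw [hr]; ring] at e4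
    obtain ⟨h4, e4⟩ := e4
    have hr1 : r ≠ 1 := by
      intro h
      exact hX 4 _ _ h4 (by norm_num) (by norm_num) e4 (by rw [h]; ring)
    obtain ⟨s, hs⟩ : ∃ s, c = s * (r - 1) :=
      ⟨c / (r - 1), (div_mul_cancel₀ _ (sub_ne_zero.2 hr1)).symm⟩
    have hr' : r - 1 ≠ 0 := sub_ne_zero.2 hr1
    have e5 := d.add_base h₀ (l := r * (s - 1)) (mul_ne_zero hr0 hr')
      (by rw [hs]; ring) ⟨h4, e4⟩
    rw [← hPdef, ← succ_nsmul,
      show (r * (s - 1)) ^ 2 + (1 - c) * (r * (s - 1)) + b - r * (r - 1) = r * s * (s - 1) by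
        rw [hr, hs]; ring,
      show -(r * (s - 1) + (1 - c)) * (r * s * (s - 1)) + b = r * s ^ 2 * (r - s) by
        rw [hr, hs]; ring] at e5
    obtain ⟨h5, e5⟩ := e5
    have hs1 : s ≠ 1 := by
      intro h
      exact hX 5 _ _ h5 (by norm_num) (by norm_num) e5 (by rw [h]; ring)
    have hs0 : s ≠ 0 := by
      rintro rfl
      exact hc (by rw [hs]; ring)
    have hs' : s - 1 ≠ 0 := sub_ne_zero.2 hs1
    obtain ⟨l, hl⟩ : ∃ l, l = s * (r - s) / (s - 1) := ⟨_, rfl⟩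
    have e6 := d.add_base h₀ (l := l) (mul_ne_zero (mul_ne_zero hr0 hs0) hs')
      (Y := r * s ^ 2 * (r - s)) (by rw [hl]; field_simp) ⟨h5, e5⟩
    rw [← hPdef, ← succ_nsmul] at e6
    obtain ⟨h6, e6⟩ := e6
    -- `6 • P = - (5 • P)`
    have h56 : (6 : ℕ) • P = -((5 : ℕ) • P) := by
      refine eq_neg_of_add_eq_zero_left ?_
      rw [← add_nsmul]
      exact hP11
    rw [e5, e6, Point.neg_some, Point.some.injEq] at h56
    have hxx := h56.1
    rw [add_right_inj, div_left_inj' (pow_ne_zero 2 hμ), hr, hs, hl] at hxx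
    field_simp at hxx
    refine ⟨r, s, ?_, hr0, hr1, hs1⟩
    refine (mul_eq_zero.1 ?_).resolve_left hs0
    linear_combination s * hxx

/-- No Weierstrass curve over `ℚ` has a nonsingular point of order `11`. -/
theorem no_order_eleven (P : W.Point) (hP : addOrderOf P = 11) : False := by
  obtain ⟨r, s, hF, hr0, hr1, hs1⟩ := exists_params P hP
  obtain ⟨u, v, h, h0, h1⟩ := exists_x1_point hF hr0 hr1 hs1
  exact (Descent11.rational_points h).1.elim h0 h1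

end Fermat.Agent.Small11
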